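import Mathlib
import Fermat.Agent.LT.T7.Level2

/-!
# Row LT, tower T7, NODE T7.L2.3 `SpecDownC` (sub-architect helper772): THE CUT

OFF-MAIN.  Definitions, Props of the leaves, PROVED top.  No `sorry`, nothing assumed.
ADDITIVE (new names only, suffix `772`).  Vocabulary: `T7/Level2.lean` 15516646 (helper797).

    specDownC_of_leaves772 :
      AdaptC772 K → ShapeC772 K → BCDataC772 K K' → IwExistC772 K → RconvLinC772 K →
      (∀ 𝔫 ≠ ⊥, T5.Tower (T5.AdelicAut.id K) 1 ⊤ 𝔫 T5.trivType) → SpecDownC K K'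

## Mathematics

Downstairs there is no automorphism: on the invariant cusp functions `W` (level `𝔫 = 𝔫 g`,
invariant under the positive scalars at infinity and under the Iwahori subgroup at `u`) the
operators `B = R(f g [] 0 0)`, `Z` (scalar uniformiser at `u`) and `𝒰` (Iwahori operator at `u`)
COMMUTE.  We choose the complete orthonormal sequence `e` ADAPTED to them (`AdaptC772`): every
`e n` is either orthogonal to `W` (then every member of the family kills it: `kill_down`), or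
an eigenfunction in `W` with eigen-data `c n` which is a vector of a simultaneous SCHUR basis of
`(B, Z, 𝒰)` on a finite-dimensional invariant subspace: `⟨B Z^k 𝒰^m e n, e n⟩ = α β^k λ^m` (the
diagonal of a product of upper triangular matrices).  By `op_down` the diagonal coefficient of
`R(f g X k m)` at `e n` is `X(Ĉ n) α β^k λ^m`: the atoms are indexed by the `n` of the second
kind, `x = α = ⟨B e n, e n⟩` (summable: `T5.STFsigma` for `f g [] 0 0`), `(b, l) = (β, λ)` is a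
joint eigenvalue of `(Z, 𝒰)` on `W` (`ShapeC772`: Iwahori-Hecke relations), `Ĉ n` = the base
change of `c n` (`BCDataC772`), and `e n` itself is the form of A0 when `Ĉ n` is spherical of
parameter `0`.  No trace, no regrouping of the series, no Lidskii.
-/

set_option autoImplicit false

open AutomorphicForm IsDedekindDomain NumberField MeasureTheory
open scoped ComplexConjugate

noncomputable section

namespace Fermat.Agent.LT.T7.H772

open Fermat.Agent.LT.H556 Fermat.Agent.LT.H556.A0 Fermat.Agent.LT.T7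

attribute [local instance] Fermat.Agent.LT.T5.instMeasurableSpaceG

/-! ## 1. Vocabulary -/

section Vocabulary

variable {K : Type} [Field K] [NumberField K]

/-- The eigen-data `c` are unitary at the finite place `v`. -/
def IsUnitaryAt772 (c : EigData K) (v : HeightOneSpectrum (𝓞 K)) : Prop :=
  ‖c.b v‖ = 1 ∧ conj (c.a v) = c.a v * conj (c.b v) ∧
    ‖c.a v‖ * Real.sqrt (Ideal.absNorm v.asIdeal : ℝ) ≤ (Ideal.absNorm v.asIdeal : ℝ) + 1

/-- The archimedean eigen-data are real and bounded by `4π`. -/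
def IsUnitaryArch772 (c : EigData K) : Prop :=
  ∀ (w : InfinitePlace K) (d : ℝ), 0 < d → (c.m w d).im = 0 ∧ ‖c.m w d‖ ≤ 4 * Real.pi

/-- The invariant cusp functions of level `𝔫` for the frame `R` and the regular place `u`
(`IsWFn` of `Level2.lean` with the orbit `{u}`). -/
abbrev IsW772 (𝔫 : Ideal (𝓞 K)) (R : Frame5 K) (u : HeightOneSpectrum (𝓞 K))
    (ψ : G K → ℂ) : Prop :=
  IsWFn 𝔫 R.r 1 (fun _ => u) ψ

/-- The eigenfunctions among them (`IsEigFn` of `Level2.lean` with the orbit `{u}`). -/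
abbrev IsEig772 (𝔫 : Ideal (𝓞 K)) (R : Frame5 K) (u : HeightOneSpectrum (𝓞 K))
    (ψ : G K → ℂ) (c : EigData K) : Prop :=
  IsEigFn 𝔫 R.r 1 (fun _ => u) ψ c

/-- `(β, λ)` is a JOINT EIGENVALUE of `(Z, 𝒰)` on the invariant cusp functions. -/
def IsJointEig772 (𝔫 : Ideal (𝓞 K)) (R : Frame5 K) (u : HeightOneSpectrum (𝓞 K))
    (H : Finset (G K)) (z : G K) (β l : ℂ) : Prop :=
  ∃ ψ : G K → ℂ, IsW772 𝔫 R u ψ ∧ (∃ x : G K, ψ x ≠ 0) ∧
    (∀ x : G K, shiftOp z 1 ψ x = β * ψ x) ∧ ∀ x : G K, iwOp u H ψ x = l * ψ x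

/-- `e` is orthogonal to the invariant cusp functions. -/
def IsPerpW772 (𝔫 : Ideal (𝓞 K)) (R : Frame5 K) (u : HeightOneSpectrum (𝓞 K))
    (e : G K → ℂ) : Prop :=
  ∀ χ : G K → ℂ, IsW772 𝔫 R u χ → T5.innerD R.μ R.F e χ = 0

/-- `e` is a SCHUR VECTOR of `(B, Z, 𝒰)` with eigen-data `c` and diagonal `(α, β, λ)`. -/
structure IsSchurVec772 (𝔫 : Ideal (𝓞 K)) (R : Frame5 K) (u : HeightOneSpectrum (𝓞 K))
    (H : Finset (G K)) (z : G K) (B : (G K → ℂ) → (G K → ℂ)) (e : G K → ℂ) (c : EigData K)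
    (α β l : ℂ) : Prop where
  eig : IsEig772 𝔫 R u e c
  norm : T5.innerD R.μ R.F e e = 1
  unit_fin : ∀ v : HeightOneSpectrum (𝓞 K), ¬ v.asIdeal ∣ 𝔫 → IsUnitaryAt772 c v
  unit_arch : IsUnitaryArch772 c
  joint : IsJointEig772 𝔫 R u H z β l
  diag : ∀ (k : ℤ) (m : ℕ),
    T5.innerD R.μ R.F (B (shiftOp z k ((iwOp u H)^[m] e))) e = α * β ^ k * l ^ m

end Vocabulary

/-! ## 2. The leaves -/

section Leaves

variable (K : Type) [Field K] [NumberField K]

/-- **NODE T7.L2.3.A = ADAPT** (adapted complete orthonormal sequence; T2 + linear algebra).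
For a level `𝔫 ≠ 0`, a frame, a place `u ∣ 𝔫`, an Iwahori coset system `H` and a scalar
uniformiser `z` at `u`, and an operator `B` which is linear on the invariant cusp functions,
preserves their eigen-classes and commutes there with `𝒰 = iwOp u H` and with the shifts
`Z^k = shiftOp z k`; if the orthogonal projection on the invariant cusp functions exists, there
is a complete orthonormal sequence `e` of cusp functions (zero vectors allowed) such that every
`e n` is orthogonal to the invariant cusp functions or a Schur vector of `(B, Z, 𝒰)`.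
(Sub-cut: `AdaptSpec.lean`.) -/
def AdaptC772 : Prop :=
  ∀ (𝔫 : Ideal (𝓞 K)), 𝔫 ≠ ⊥ → ∀ (R : Frame5 K), IsFrame5 R →
    ∀ u : HeightOneSpectrum (𝓞 K), u.asIdeal ∣ 𝔫 →
    ∀ (H : Finset (G K)) (z : G K), IsIwCosetSystem u H → IsScalarUniformizerAt u z →
    ∀ B : (G K → ℂ) → (G K → ℂ),
      (∀ (ψ χ : G K → ℂ) (a : ℂ), IsW772 𝔫 R u ψ → IsW772 𝔫 R u χ →
        B (fun x => ψ x + a * χ x) = fun x => B ψ x + a * B χ x) →
      (∀ (ψ : G K → ℂ) (c : EigData K), IsEig772 𝔫 R u ψ c → IsEig772 𝔫 R u (B ψ) c) →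
      (∀ ψ : G K → ℂ, IsW772 𝔫 R u ψ →
        (∀ x : G K, B (iwOp u H ψ) x = iwOp u H (B ψ) x) ∧
        ∀ (k : ℤ) (x : G K), B (shiftOp z k ψ) x = shiftOp z k (B ψ) x) →
      (∀ ψ : G K → ℂ, T5.IsCuspFn 𝔫 T5.trivType R.r ψ →
        ∃ ψ₁ : G K → ℂ, IsW772 𝔫 R u ψ₁ ∧ IsPerpW772 𝔫 R u (fun x => ψ x - ψ₁ x)) →
      ∃ e : ℕ → G K → ℂ, T5.IsCuspONB 𝔫 T5.trivType R.r R.μ R.F e ∧
        ∀ n : ℕ, IsPerpW772 𝔫 R u (e n) ∨
          ∃ (c : EigData K) (α β l : ℂ), IsSchurVec772 𝔫 R u H z B (e n) c α β l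

/-- **LEAF T7.L2.3.B = SHAPE** (Iwahori-Hecke relations at `u`; asset helper822 `RegParam`):
a joint eigenvalue `(β, λ)` of `(Z, 𝒰)` on the invariant cusp functions satisfies
`IsRegParam √q_u β λ`.
Proof: `𝒰 = q^{-1/2} ρ_ω T_s` with `ρ_ω` the translation by `ω = [[0,1],[ϖ,0]]` (unitary,
`ρ_ω² = Z`) and `T_s` the sum over `I s I / I` (self-adjoint, `T_s² = (q-1) T_s + q`); on a
joint eigenvector `v`: `T_s v = μ J v`, `J = ρ_ω / √β`, `μ = √q λ / √β`; `⟨T_s v, v⟩` and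
`⟨J v, v⟩` are real, so `μ` is real or `⟨T_s v, v⟩ = 0`, and then `|μ|² = q`. -/
def ShapeC772 : Prop :=
  ∀ (𝔫 : Ideal (𝓞 K)), 𝔫 ≠ ⊥ → ∀ (R : Frame5 K), IsFrame5 R →
    ∀ u : HeightOneSpectrum (𝓞 K), u.asIdeal ∣ 𝔫 →
    ∀ (H : Finset (G K)) (z : G K), IsIwCosetSystem u H → IsScalarUniformizerAt u z →
    ∀ β l : ℂ, IsJointEig772 𝔫 R u H z β l →
      IsRegParam (Real.sqrt (Ideal.absNorm u.asIdeal : ℝ)) β l

/-- **LEAF T7.L2.3.D = IW-EXIST**: Iwahori coset systems and scalar uniformisers exist at every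
finite place.  (`H = {[[ϖ, a],[0,1]] : a mod ϖ}`, `z = ϖ · 1`.) -/
def IwExistC772 : Prop :=
  ∀ u : HeightOneSpectrum (𝓞 K),
    (∃ H : Finset (G K), IsIwCosetSystem u H) ∧ ∃ z : G K, IsScalarUniformizerAt u z

/-- **LEAF T7.L2.3.E = RCONV-LIN**: `R(φ)` is linear on the bounded continuous functions, for a
continuous `φ` with compact support. -/
def RconvLinC772 : Prop :=
  ∀ (μ : Measure (G K)) (F : Set (G K)), T5.IsFrame μ F →
    ∀ φ : G K → ℂ, Continuous φ → HasCompactSupport φ →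
    ∀ (ψ χ : G K → ℂ) (a : ℂ), Continuous ψ → (∃ C : ℝ, ∀ x : G K, ‖ψ x‖ ≤ C) →
      Continuous χ → (∃ C : ℝ, ∀ x : G K, ‖χ x‖ ≤ C) →
      T5.Rconv μ φ (fun x => ψ x + a * χ x) = fun x => T5.Rconv μ φ ψ x + a * T5.Rconv μ φ χ x

variable (K' : Type) [Field K'] [NumberField K'] [Algebra K K']

/-- **LEAF T7.L2.3.C = BC-DATA** (elementary): the base change of unitary eigen-data exists and
is unitary outside `S'`, when `S'` contains the places of `K'` dividing the level `𝔫 𝒪_{K'}`.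
(`Ĉ.a w = satakePow f (c.a v) (c.b v)`, `Ĉ.b w = (c.b v)^f` for `w ∣ v` of residue degree `f`,
`Ĉ.m w = c.m (w ∩ K)`; `satakePow f a b = α^f + β^f` with `{conj α, conj β} = {1/α, 1/β}`.) -/
def BCDataC772 : Prop :=
  ∀ (𝔫 : Ideal (𝓞 K)) (S' : Finset (HeightOneSpectrum (𝓞 K'))),
    (∀ w : HeightOneSpectrum (𝓞 K'),
      w.asIdeal ∣ Ideal.map (algebraMap (𝓞 K) (𝓞 K')) 𝔫 → w ∈ S') →
    ∀ c : EigData K, (∀ v : HeightOneSpectrum (𝓞 K), ¬ v.asIdeal ∣ 𝔫 → IsUnitaryAt772 c v) →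
      IsUnitaryArch772 c →
      ∃ C : EigData K', IsBCData c C S' ∧ C.IsUnitaryOut S'

end Leaves

/-! ## 3. The top -/

section Top

variable {K : Type} [Field K] [NumberField K]

theorem shiftOp_zero772 (z : G K) (ψ : G K → ℂ) : shiftOp z 0 ψ = ψ := by
  funext x
  simp [shiftOp]

theorem innerD_const_mul772 (μ : Measure (G K)) (F : Set (G K)) (a : ℂ) (ψ χ : G K → ℂ) :
    T5.innerD μ F (fun x => a * ψ x) χ = a * T5.innerD μ F ψ χ := by
  unfold T5.innerD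
  rw [← MeasureTheory.integral_const_mul]
  congr 1
  funext x
  ring

theorem innerD_zero772 (μ : Measure (G K)) (F : Set (G K)) (ψ χ : G K → ℂ)
    (h : ∀ x, ψ x = 0) : T5.innerD μ F ψ χ = 0 := by
  unfold T5.innerD
  simp [h]

theorem rsig_id772 (e : G K → ℂ) : T5.Rsig (T5.AdelicAut.id K) e = e := by
  funext x
  unfold T5.Rsig
  rw [T5.onGinv_id]

/-- A function of norm `1` does not vanish identically. -/
theorem exists_ne_zero_of_norm772 (μ : Measure (G K)) (F : Set (G K)) (e : G K → ℂ)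
    (h : T5.innerD μ F e e = 1) : ∃ x : G K, e x ≠ 0 := by
  by_contra hc
  have h0 : ∀ x, e x = 0 := fun x => by
    by_contra hx
    exact hc ⟨x, hx⟩
  rw [innerD_zero772 μ F e e h0] at h
  exact zero_ne_one h

variable {K' : Type} [Field K'] [NumberField K'] [Algebra K K']

/-- The realisation: a Schur vector whose base change is spherical of parameter `0` is a cusp
form as in A0 (`K` totally complex). -/
theorem isSph0CuspFormFor_of_schur772 (hcyc_alg : Algebra.IsAlgebraic K K') (hcplx : TotCplx K)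
    {𝔫 : Ideal (𝓞 K)} (h𝔫 : 𝔫 ≠ ⊥) {R : Frame5 K} {u : HeightOneSpectrum (𝓞 K)}
    {H : Finset (G K)} {z : G K} {B : (G K → ℂ) → (G K → ℂ)} {e : G K → ℂ} {c : EigData K}
    {α β l : ℂ} (hs : IsSchurVec772 𝔫 R u H z B e c α β l)
    {C : EigData K'} {S' : Finset (HeightOneSpectrum (𝓞 K'))} (hC : IsBCData c C S')
    (h0 : C.IsSph0) :
    IsSph0CuspFormFor (⟨𝔫, h𝔫, c.a, c.b⟩ : HeckeEigensystem K ℂ) e where
  cont := hs.eig.inv.cusp.cont
  bdd := hs.eig.inv.cusp.bdd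
  ne_zero := exists_ne_zero_of_norm772 R.μ R.F e hs.norm
  left_inv := fun γ g => hs.eig.inv.cusp.aut.left_inv γ g
  level_inv := fun v hv g => hs.eig.inv.cusp.aut.level_inv v hv g
  arch_scalar := hs.eig.inv.arch_scalar
  arch_compact := fun w k hk g => by
    have h := hs.eig.inv.cusp.aut.arch_compact w k hk g
    simpa [T5.trivType] using h
  mean_complex := fun w _ d hd Y hY g => by
    obtain ⟨w', hw'⟩ := InfinitePlace.comap_surjective (k := K) (K := K') w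
    have h1 := hs.eig.mean w d hd Y hY g
    have h2 : c.m w d = sph0 d := by
      rw [← hw', ← hC.2 w' d]
      exact h0 w' d hd
    rw [h1, h2]
    rfl
  mean_real := fun w hw => absurd (hcplx w) (InfinitePlace.not_isComplex_iff_isReal.2 hw)
  cuspidal := hs.eig.inv.cusp.cuspidal
  hecke := fun v hv => hs.eig.hecke v hv

/-- **THE TOP OF THE CUT OF `SpecDownC`.** -/
theorem specDownC_of_leaves772 (hA : AdaptC772 K) (hSh : ShapeC772 K) (hBC : BCDataC772 K K')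
    (hIw : IwExistC772 K) (hLin : RconvLinC772 K)
    (hT : ∀ 𝔫 : Ideal (𝓞 K), 𝔫 ≠ ⊥ → T5.Tower (T5.AdelicAut.id K) 1 ⊤ 𝔫 T5.trivType) :
    SpecDownC K K' := by
  intro ℓ hcyc hℓ hcplx Φ hΦ hconst Dt hDt g hg
  have h𝔫 : Dt.𝔫 g ≠ ⊥ := (hDt.comp g hg).level_ne
  have hR : IsFrame5 Dt.R := (hDt.comp g hg).frame
  have hu : Dt.u.asIdeal ∣ Dt.𝔫 g := hDt.u_level g hg
  obtain ⟨⟨H, hH⟩, ⟨z, hz⟩⟩ := hIw Dt.u
  have h0 : ∀ x ∈ ([] : List (Gen K')), x.Out Dt.S' := fun x hx => absurd hx List.not_mem_nil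
  have hek0 := hDt.ekprod_down g [] 0 0 hg h0
  obtain ⟨e, he, hcase⟩ := hA (Dt.𝔫 g) h𝔫 Dt.R hR Dt.u hu H z hH hz
    (T5.Rconv Dt.R.μ (Dt.f g [] 0 0))
    (fun ψ χ a hψ hχ => hLin Dt.R.μ Dt.R.F hR.frame (Dt.f g [] 0 0) hek0.1.cont hek0.1.supp
      ψ χ a hψ.cusp.cont hψ.cusp.bdd hχ.cusp.cont hχ.cusp.bdd)
    (fun ψ c hψ => hDt.class_down g hg ψ c hψ)
    (fun ψ hψ => hDt.comm_down g hg ψ hψ H z hH hz)
    (fun ψ hψ => hDt.proj_down g hg ψ hψ)
  classical
  let s : Set ℕ := {n | ∃ (c : EigData K) (α β l : ℂ),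
    IsSchurVec772 (Dt.𝔫 g) Dt.R Dt.u H z (T5.Rconv Dt.R.μ (Dt.f g [] 0 0)) (e n) c α β l}
  have hs : ∀ i : s, ∃ (c : EigData K) (α β l : ℂ),
      IsSchurVec772 (Dt.𝔫 g) Dt.R Dt.u H z (T5.Rconv Dt.R.μ (Dt.f g [] 0 0)) (e i.1) c α β l :=
    fun i => i.2
  choose cd α β l hsch using hs
  have hS' : ∀ w : HeightOneSpectrum (𝓞 K'),
      w.asIdeal ∣ Ideal.map (algebraMap (𝓞 K) (𝓞 K')) (Dt.𝔫 g) → w ∈ Dt.S' :=
    fun w hw => (hDt.mem_S'_g g hg w).2 hw
  have hbc : ∀ i : s, ∃ C : EigData K', IsBCData (cd i) C Dt.S' ∧ C.IsUnitaryOut Dt.S' :=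
    fun i => hBC (Dt.𝔫 g) Dt.S' hS' (cd i) (hsch i).unit_fin (hsch i).unit_arch
  choose Ch hCh using hbc
  -- the diagonal coefficients
  have hdiag : ∀ (X : List (Gen K')), (∀ x ∈ X, x.Out Dt.S') → ∀ (k : ℤ) (m : ℕ) (i : s),
      T5.diagCoeff (T5.AdelicAut.id K) Dt.R.μ Dt.R.F (Dt.f g X k m) (e i.1)
        = wordEv X (Ch i) * α i * β i ^ k * l i ^ m := by
    intro X hX k m i
    unfold T5.diagCoeff
    rw [rsig_id772]
    have hop : T5.Rconv Dt.R.μ (Dt.f g X k m) (e i.1) = fun x => wordEv X (Ch i)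
        * T5.Rconv Dt.R.μ (Dt.f g [] 0 0) (shiftOp z k ((iwOp Dt.u H)^[m] (e i.1))) x :=
      funext (hDt.op_down g X k m hg hX (e i.1) (cd i) (Ch i) (hsch i).eig (hCh i).1 H z hH hz)
    rw [hop, innerD_const_mul772, (hsch i).diag k m]
    ring
  have hkill : ∀ (X : List (Gen K')), (∀ x ∈ X, x.Out Dt.S') → ∀ (k : ℤ) (m : ℕ) (n : ℕ),
      n ∉ s → T5.diagCoeff (T5.AdelicAut.id K) Dt.R.μ Dt.R.F (Dt.f g X k m) (e n) = 0 := by
    intro X hX k m n hn
    unfold T5.diagCoeff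
    rw [rsig_id772]
    apply innerD_zero772
    rcases hcase n with hp | hp
    · exact hDt.kill_down g X k m hg hX (e n) (he.cusp n) hp
    · exact absurd hp hn
  have hα : ∀ i : s, α i
      = T5.diagCoeff (T5.AdelicAut.id K) Dt.R.μ Dt.R.F (Dt.f g [] 0 0) (e i.1) := by
    intro i
    rw [hdiag [] h0 0 0 i]
    simp [wordEv]
  have : IsGalois K K' := hcyc.galois
  refine ⟨e, s, fun i => ⟨Dt.𝔫 g, h𝔫, (cd i).a, (cd i).b⟩, Ch, β, l,
    Real.sqrt (Ideal.absNorm Dt.u.asIdeal : ℝ), α, he, ?_, fun i => (hCh i).2,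
    fun i => (hCh i).1.1,
    fun i => hSh (Dt.𝔫 g) h𝔫 Dt.R hR Dt.u hu H z hH hz (β i) (l i) (hsch i).joint, ?_,
    fun i hi => ⟨e i.1, isSph0CuspFormFor_of_schur772 inferInstance hcplx h𝔫 (hsch i)
      (hCh i).1 hi⟩⟩
  · obtain ⟨_, φ₁, φ₂, t₁, t₂, k₁, k₁', k₂, k₂', hconv⟩ := hek0
    have hsum := ((hT (Dt.𝔫 g) h𝔫).stf Dt.R.μ Dt.R.F Dt.R.r hR.frame hR.ray
      (T5.autPreserves_id _ _ _) e he φ₁ φ₂ t₁ t₂ k₁ k₁' k₂ k₂').1
    rw [← hconv] at hsum
    have hsum' := (summable_norm_iff.2 hsum).subtype s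
    refine hsum'.congr (fun i => ?_)
    rw [hα i]
    rfl
  · intro X hX k m hm
    unfold specSide
    have hsupp : Function.support
        (fun n => T5.diagCoeff (T5.AdelicAut.id K) Dt.R.μ Dt.R.F (Dt.f g X k m) (e n)) ⊆ s := by
      intro n hn
      by_contra hns
      exact hn (hkill X hX k m n hns)
    rw [← tsum_subtype_eq_of_support_subset hsupp]
    exact tsum_congr (fun i => hdiag X hX k m i)

end Top

end Fermat.Agent.LT.T7.H772

end
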